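import Fermat.Agent.EC.FrobeniusFiniteField
import Fermat.Agent.GaloisBasic.RepTwoDim
import Mathlib.FieldTheory.Perfect
import Mathlib.GroupTheory.Perm.Cycle.Type

/-!
# Ordinary curves over `𝔽_p` have a point of order `p`

If `p ∤ a` then the number of points over `𝔽_{p^(p-1)}` is divisible by `p`, as the traces of the
powers of Frobenius satisfy `a_r ≡ a^r` modulo `p`.
-/

set_option autoImplicit false

noncomputable section

open WeierstrassCurve
open scoped WeierstrassCurve.Affine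

namespace FermatAgent.PSEMI

open FermatAgent.EC

/-- The traces of the powers of a matrix with trace `a` and determinant `p`. -/
def lucas (a p : ℤ) (r : ℕ) : ℤ := (!![a, -p; 1, 0] ^ r).trace

theorem lucas_intCast {R : Type*} [CommRing R] (a p : ℤ) (r : ℕ) :
    ((lucas a p r : ℤ) : R) = (!![(a : R), -(p : R); 1, 0] ^ r).trace := by
  have e : (!![a, -p; 1, 0] : Matrix (Fin 2) (Fin 2) ℤ).map (Int.castRingHom R) =
      !![(a : R), -(p : R); 1, 0] := by
    ext i j; fin_cases i <;> fin_cases j <;> simp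
  have h := map_pow (Int.castRingHom R).mapMatrix (!![a, -p; 1, 0] : Matrix (Fin 2) (Fin 2) ℤ) r
  rw [lucas, ← e]
  exact (AddMonoidHom.map_trace (Int.castRingHom R).toAddMonoidHom _).trans
    (congrArg Matrix.trace h)

theorem lucas_congr (a : ℤ) (p : ℕ) {r : ℕ} (hr : r ≠ 0) :
    ((lucas a p r : ℤ) : ZMod p) = (a : ZMod p) ^ r := by
  rw [lucas_intCast, Int.cast_natCast, ZMod.natCast_self, neg_zero]
  have e : ∀ j : ℕ, (!![(a : ZMod p), 0; 1, 0]) ^ (j + 1) =
      !![(a : ZMod p) ^ (j + 1), 0; (a : ZMod p) ^ j, 0] := fun j => by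
    induction j with
    | zero => simp
    | succ j ih =>
      rw [pow_succ, ih]
      ext i k; fin_cases i <;> fin_cases k <;>
        simp [Matrix.mul_apply, Fin.sum_univ_two, pow_succ]
  obtain ⟨j, rfl⟩ := Nat.exists_eq_succ_of_ne_zero hr
  rw [e]
  simp [Matrix.trace_fin_two]

theorem trace_pow_eq_lucas {R : Type} [CommRing R] (M : Matrix (Fin 2) (Fin 2) R) {a p : ℤ}
    (ht : M.trace = a) (hd : M.det = p) (r : ℕ) : (M ^ r).trace = lucas a p r := by
  rw [lucas_intCast]
  refine GaloisBasic.trace_pow_eq_of_eq ?_ ?_ r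
  · rw [ht]; simp [Matrix.trace_fin_two]
  · rw [hd]; simp [Matrix.det_fin_two]

variable {p : ℕ} [hp : Fact p.Prime] {k : Type} [Field k] [IsAlgClosed k] [CharP k p]
  [DecidableEq k]

/-- The power `x ↦ x ^ (p ^ r)`. -/
def frobPow (k : Type) [Field k] [IsAlgClosed k] (p : ℕ) [Fact p.Prime] [CharP k p] (r : ℕ) :
    k ≃+* k :=
  haveI : ExpChar k p := ExpChar.prime Fact.out
  iterateFrobeniusEquiv k p r

omit [DecidableEq k] in
theorem frobPow_apply (r : ℕ) (x : k) : frobPow k p r x = x ^ (p ^ r) := by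
  have : ExpChar k p := ExpChar.prime hp.out
  exact iterateFrobeniusEquiv_apply k p r x

/-- The trace of a power of Frobenius, modulo `ℓ`. -/
theorem trace_congr_lucas {V : WeierstrassCurve k} [V.IsElliptic] {n : ℕ} (hn : 0 < n)
    (hV : ∀ r, V.map (frobPow k p r).toRingHom = V) {ℓ : ℕ} [Fact ℓ.Prime]
    [Module (ZMod ℓ) (Submodule.torsionBy ℤ V.toAffine.Point ℓ)] (hlk : (ℓ : k) ≠ 0) {a : ℤ}
    (hcard : ((p ^ 1 : ℕ) : ℤ) + 1 - fixedCard (σ := frobPow k p 1) (hV 1) = a) :
    (((((p ^ n : ℕ) : ℤ) + 1 - fixedCard (σ := frobPow k p n) (hV n)) : ℤ) : ZMod ℓ) =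
      lucas a p n := by
  set ar : ℤ := ((p ^ n : ℕ) : ℤ) + 1 - fixedCard (σ := frobPow k p n) (hV n)
  have hrank := finrank_torsionBy_zmod (V := V) (ℓ := ℓ) hlk
  have := Module.finite_of_finrank_eq_succ hrank
  set F : ℕ → Module.End (ZMod ℓ) (Submodule.torsionBy ℤ V.toAffine.Point (ℓ : ℤ)) :=
    fun r => frobTorsion (ℓ := ℓ) (σ := frobPow k p r) (hV r)
  let b := Module.finBasisOfFinrankEq (ZMod ℓ) (Submodule.torsionBy ℤ V.toAffine.Point ℓ) hrank
  have hpow : ∀ r : ℕ, LinearMap.toMatrix b b (F r) = LinearMap.toMatrix b b (F 1) ^ r :=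
      fun r => by
    induction r with
    | zero =>
      rw [pow_zero, ← LinearMap.toMatrix_id b]
      congr 1
      refine LinearMap.ext fun P => Subtype.ext ?_
      show mapPoint (frobPow k p 0).toRingHom (hV 0) (P : V.toAffine.Point) = P
      rcases (P : V.toAffine.Point) with _ | ⟨x, y, h⟩
      · rfl
      · rw [mapPoint_some]
        congr 1 <;> exact (frobPow_apply 0 _).trans (by rw [pow_zero, pow_one])
    | succ r ih =>
      rw [pow_succ, ← ih, ← LinearMap.toMatrix_comp]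
      congr 1
      refine LinearMap.ext fun P => Subtype.ext ?_
      show mapPoint (frobPow k p (r + 1)).toRingHom (hV (r + 1)) (P : V.toAffine.Point) =
        mapPoint (frobPow k p r).toRingHom (hV r)
          (mapPoint (frobPow k p 1).toRingHom (hV 1) (P : V.toAffine.Point))
      have hc : ∀ x, (frobPow k p (r + 1)).toRingHom x =
          (frobPow k p r).toRingHom ((frobPow k p 1).toRingHom x) := fun x => by
        show frobPow k p (r + 1) x = frobPow k p r (frobPow k p 1 x)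
        rw [frobPow_apply, frobPow_apply, frobPow_apply, pow_one, ← pow_mul, ← pow_succ']
      rcases (P : V.toAffine.Point) with _ | ⟨x, y, h⟩
      · rfl
      · rw [mapPoint_some, mapPoint_some, mapPoint_some]
        congr 1 <;> exact hc _
  have hs : ∀ r x, frobPow k p r x = x ^ (p ^ r) := fun r x => frobPow_apply r x
  have h1 := trace_frobTorsion (ℓ := ℓ) (r := 1) one_pos (hV 1) (hs 1) hlk
  have h2 := det_frobTorsion (ℓ := ℓ) (hV 1) (hs 1) hlk
  have h3 := trace_frobTorsion (ℓ := ℓ) (r := n) hn (hV n) (hs n) hlk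
  rw [hcard] at h1
  have h4 : (LinearMap.toMatrix b b (F 1) ^ n).trace = (lucas a p n : ZMod ℓ) := by
    refine trace_pow_eq_lucas _ ?_ ?_ n
    · rw [← h1, LinearMap.trace_eq_matrix_trace (ZMod ℓ) b]
    · rw [Int.cast_natCast, ← pow_one p, ← h2, ← LinearMap.det_toMatrix b]
  rw [← h4, ← hpow]
  show (ar : ZMod ℓ) = _
  rw [show (ar : ZMod ℓ) = LinearMap.trace (ZMod ℓ) _ (F n) from h3.symm,
    LinearMap.trace_eq_matrix_trace (ZMod ℓ) b]

/-- **An ordinary curve has a point of order `p`.** -/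
theorem exists_torsion_of_ordinary (W₀ : WeierstrassCurve (ZMod p)) (hΔ : W₀.Δ ≠ 0)
    (ha : (W₀.traceOfFrobenius : ZMod p) ≠ 0) [Algebra (ZMod p) k] :
    ∃ P : (W₀⁄k).Point, p • P = 0 ∧ P ≠ 0 := by
  classical
  have : ExpChar k p := ExpChar.prime hp.out
  set V : WeierstrassCurve k := W₀⁄k
  have : V.IsElliptic := ⟨isUnit_iff_ne_zero.2 (by
    show (W₀.map (algebraMap (ZMod p) k)).Δ ≠ 0
    rw [WeierstrassCurve.map_Δ]; exact (_root_.map_ne_zero _).2 hΔ)⟩
  have hfixZ : ∀ (r : ℕ) (c : ZMod p),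
      frobPow k p r (algebraMap (ZMod p) k c) = algebraMap (ZMod p) k c := fun r c =>
    RingHom.congr_fun (RingHom.ext_zmod ((frobPow k p r).toRingHom.comp (algebraMap (ZMod p) k))
      (algebraMap (ZMod p) k)) c
  have hV : ∀ r, V.map (frobPow k p r).toRingHom = V := fun r => by
    show (W₀.map (algebraMap (ZMod p) k)).map _ = W₀.map (algebraMap (ZMod p) k)
    rw [WeierstrassCurve.map_map]
    congr 1
    exact RingHom.ext_zmod _ _
  let σk : k ≃ₐ[ZMod p] k := AlgEquiv.ofRingEquiv (f := frobPow k p 1) (hfixZ 1)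
  have hσk : ∀ x, σk x = x ^ Nat.card (ZMod p) := fun x => by
    rw [Nat.card_zmod]
    show frobPow k p 1 x = _
    rw [frobPow_apply, pow_one]
  set a := W₀.traceOfFrobenius
  have hcard : ((p ^ 1 : ℕ) : ℤ) + 1 - fixedCard (σ := frobPow k p 1) (hV 1) = a := by
    have := fixedCard_eq_card (W := W₀) σk hσk (map_algEquiv_finite σk)
    rw [show fixedCard (σ := frobPow k p 1) (hV 1) = W₀.card from this, pow_one,
      show a = (Nat.card (ZMod p) : ℤ) + 1 - W₀.card from rfl, Nat.card_zmod]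
  set n := p - 1
  have hn : 0 < n := Nat.sub_pos_of_lt hp.out.one_lt
  set ar : ℤ := ((p ^ n : ℕ) : ℤ) + 1 - fixedCard (σ := frobPow k p n) (hV n)
  have key : ∀ ℓ : ℕ, ℓ.Prime → ℓ ≠ p → (ar : ZMod ℓ) = lucas a p n := by
    intro ℓ hℓ hℓp
    have := Fact.mk hℓ
    have hlk : (ℓ : k) ≠ 0 := by
      rw [ne_eq, CharP.cast_eq_zero_iff k p, Nat.prime_dvd_prime_iff_eq hp.out hℓ]
      exact Ne.symm hℓp
    have hzero : ∀ x : Submodule.torsionBy ℤ V.toAffine.Point (ℓ : ℤ), ℓ • x = 0 := fun x =>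
      Subtype.ext (by simp [nsmul_coe_torsionBy x])
    let : Module (ZMod ℓ) (Submodule.torsionBy ℤ V.toAffine.Point ℓ) :=
      AddCommGroup.zmodModule hzero
    exact trace_congr_lucas hn hV hlk hcard
  have har : ar = lucas a p n := by
    obtain ⟨ℓ, hle, hℓ⟩ := Nat.exists_infinite_primes ((ar - lucas a p n).natAbs + p + 1)
    have h := key ℓ hℓ (by omega)
    rw [← sub_eq_zero]
    refine Int.natAbs_eq_zero.mp (Nat.eq_zero_of_dvd_of_lt ?_ (show _ < ℓ by omega))
    rw [← Int.natCast_dvd, ← ZMod.intCast_zmod_eq_zero_iff_dvd, Int.cast_sub, h, sub_self]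
  have hdvd : p ∣ fixedCard (σ := frobPow k p n) (hV n) := by
    have h : ((fixedCard (σ := frobPow k p n) (hV n) : ℤ) : ZMod p) =
        (((p ^ n : ℕ) : ℤ) + 1 - ar : ℤ) := by
      congr 1; simp only [ar]; ring
    rw [har, Int.cast_sub, lucas_congr a p hn.ne', ZMod.pow_card_sub_one_eq_one ha] at h
    rw [← ZMod.natCast_eq_zero_iff]
    simpa [zero_pow hn.ne'] using h
  have hfin := (finite_fixed hn (hV n) fun x => frobPow_apply n x).to_subtype
  let S : AddSubgroup V.toAffine.Point :=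
    AddMonoidHom.eqLocus (mapPoint (frobPow k p n).toRingHom (hV n)) (AddMonoidHom.id _)
  have : Finite S := hfin
  obtain ⟨P, hP⟩ := exists_prime_addOrderOf_dvd_card' (G := S) p hdvd
  refine ⟨(P : V.toAffine.Point), ?_, fun h => ?_⟩
  · have h0 : p • P = 0 := by rw [← hP]; exact addOrderOf_nsmul_eq_zero P
    exact congrArg Subtype.val h0
  · rw [show P = 0 from Subtype.ext h, addOrderOf_zero] at hP
    exact hp.out.one_lt.ne hP

end FermatAgent.PSEMI
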