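import Fermat.Agent.PSEMI.EC.Count
import Fermat.Agent.TateRep.Main
import Fermat.Agent.Lifting.CurveLift

/-!
# Inertia at an ordinary prime on the torsion

At a prime of good ordinary or multiplicative reduction inertia on `E[p]` has trace `1 + χ`.
-/

set_option autoImplicit false

noncomputable section

open WeierstrassCurve Polynomial
open scoped WeierstrassCurve.Affine

namespace FermatAgent.PSEMI

open FermatAgent.ECLocal FermatAgent.TateRep

local notation "Qbar" => AlgebraicClosure ℚ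
local notation "GQ" => AlgebraicClosure ℚ ≃ₐ[ℚ] AlgebraicClosure ℚ

variable {W : WeierstrassCurve ℤ} {p : ℕ} [hp : Fact p.Prime] {A : ValuationSubring Qbar}

/-- **At good ordinary reduction not all of `E[p]` reduces to zero.** -/
theorem exists_not_isE1_of_ordinary (hA : A.LiesOverPrime p) (hgood : W.IsGoodPrimeFor p)
    (hap : ¬ (p : ℤ) ∣ W.apOfModel p) (hΔ0 : W.Δ ≠ 0) (hp2 : p ≠ 2) :
    ∃ P : ((W.map (Int.castRingHom ℚ))⁄Qbar).Point, p • P = 0 ∧ ¬ IsE1 (toGen W A P) := by
  classical
  by_contra hcon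
  simp only [not_exists, not_and, not_not] at hcon
  have hodd : Odd p := hp.out.odd_of_ne_two hp2
  let k := IsLocalRing.ResidueField A
  have : CharP k p := residueChar A hA
  have : IsAlgClosed k := isAlgClosed_residueField A
  let : Algebra (ZMod p) k := ZMod.algebra k p
  have hV : (spc (modelAt W A)) = (W.reductionMod p)⁄k := by
    show (modelAt W A).map (IsLocalRing.residue A) = (W.map _).map (algebraMap (ZMod p) k)
    rw [map_modelAt_eq, WeierstrassCurve.map_map]
    congr 1
    exact (RingHom.ext_int _ _)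
  have hred : (W.reductionMod p).Δ ≠ 0 := by
    rw [WeierstrassCurve.reductionMod, WeierstrassCurve.map_Δ, eq_intCast, Ne,
      ZMod.intCast_zmod_eq_zero_iff_dvd]
    exact hgood
  obtain ⟨P, hP, hP0⟩ := exists_torsion_of_ordinary (k := k) (W.reductionMod p) hred (by
    rw [Ne, ZMod.intCast_zmod_eq_zero_iff_dvd]; exact hap)
  have hΔk : ((W.reductionMod p)⁄k).Δ ≠ 0 := by
    rw [← hV, WeierstrassCurve.map_Δ]; exact ECLocal.residue_modelAt_Δ hp.out hA hgood
  set f : A[X] := (modelAt W A).preΨ' p with hfdef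
  have hev : ∀ x, (((W.reductionMod p)⁄k).preΨ' p).eval x =
      IsLocalRing.residue A (f.coeff 0) := by
    intro x
    rw [← hV, residue_map_preΨ'_eq_C hodd hΔ0 hcon, eval_C]
  have hall : ∀ Q : ((W.reductionMod p)⁄k).Point, p • Q = 0 := by
    rcases P with _ | ⟨x, y, hxy⟩
    · exact absurd rfl hP0
    have h0 := (EC.mem_roots_preΨ'_iff hΔk hodd hxy).mp hP
    rintro (_ | ⟨x', y', hxy'⟩)
    · exact nsmul_zero _
    · exact (EC.mem_roots_preΨ'_iff hΔk hodd hxy').mpr ((hev x').trans ((hev x).symm.trans h0))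
  have h2 : ((2 : ℕ) : k) ≠ 0 := fun h => hp2 ((Nat.prime_dvd_prime_iff_eq hp.out Nat.prime_two).mp
    ((CharP.cast_eq_zero_iff k p 2).mp h))
  have hc := EC.natCard_torsionBy hΔk h2
  have hsub : Subsingleton (Submodule.torsionBy ℤ ((W.reductionMod p)⁄k).Point (2 : ℕ)) := by
    have key : ∀ Q : Submodule.torsionBy ℤ ((W.reductionMod p)⁄k).Point (2 : ℕ), Q = 0 :=
      fun Q => by
      refine Subtype.ext ?_
      have hq2 : 2 • (Q : ((W.reductionMod p)⁄k).Point) = 0 := by
        exact (natCast_zsmul _ 2).symm.trans ((Submodule.mem_torsionBy_iff _ _).mp Q.2)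
      obtain ⟨j, hj⟩ := hodd
      show (Q : ((W.reductionMod p)⁄k).Point) = 0
      have e : (Q : ((W.reductionMod p)⁄k).Point) = p • Q.1 - j • (2 • Q.1) := by
        rw [← mul_nsmul' Q.1 j 2, eq_sub_iff_add_eq', ← succ_nsmul]
        congr 1
        omega
      rw [e, hall, hq2, nsmul_zero, sub_zero]
    exact ⟨fun a b => (key a).trans (key b).symm⟩
  rw [Nat.card_of_subsingleton
    (0 : Submodule.torsionBy ℤ ((W.reductionMod p)⁄k).Point (2 : ℕ))] at hc
  norm_num at hc

/-- A point moved by inertia moves within the kernel of reduction. -/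
theorem inertia_sub_isE1 (hA : A.LiesOverPrime p) (hgood : W.IsGoodPrimeFor p) {σ : GQ}
    (hσ : σ ∈ A.inertiaSubgroupIn ℚ) (Q : ((W.map (Int.castRingHom ℚ))⁄Qbar).Point) :
    IsE1 (toGen W A (σ • Q - Q)) := by
  classical
  have h0 := isE0_of_residue_Δ_ne_zero (ECLocal.residue_modelAt_Δ hp.out hA hgood) (toGen W A Q)
  have h := sub_isE1_of_isConj (actsInertially_of_mem A σ hσ) (isConj_toGen W A σ Q) h0
  have h' := h.neg
  rwa [← map_sub, ← map_neg, neg_sub] at h'

variable (hΔ : W.Δ ≠ 0) (hW : W.IsSemistableModel) (hp2 : p ≠ 2) (hord : Assembly.OrdinaryAt W p)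
include hW hp2 hord

/-- **Inertia at an ordinary prime has residual trace `1 + χ`.** -/
theorem toZMod_trace_tateMat (hA : A.LiesOverPrime p) {σ : GQ}
    (hσ : σ ∈ A.inertiaSubgroupIn ℚ) :
    PadicInt.toZMod (Lifting.tateMat (p := p) hΔ σ).trace =
      1 + PadicInt.toZMod (ES.padCyclo p σ) := by
  classical
  by_cases hgood : W.IsGoodPrimeFor p
  swap
  · obtain ⟨U, hD, hI, -⟩ := Lifting.exists_adapted_tateMat (p := p) hΔ hW hp2 hgood A hA
    have h11 := hI σ hσ
    have h00 := (hD σ (GaloisBasic.inertiaSubgroupIn_le_decompositionSubgroup A hσ)).2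
    rw [h11, mul_one] at h00
    rw [← Matrix.trace_units_conj U, Matrix.trace_fin_two, h00, h11, map_add, map_one, add_comm]
  have hap : ¬ (p : ℤ) ∣ W.apOfModel p := hord.resolve_left fun h => h hgood
  obtain ⟨t, ht⟩ := Lifting.exists_torsion_basis (p := p) hΔ
  set f := Affine.Point.galoisRepModuleEnd (K := Qbar) ℚ (W.map (Int.castRingHom ℚ)).toAffine p σ
  obtain ⟨P, hP, hP1⟩ := exists_not_isE1_of_ordinary hA hgood hap hΔ hp2
  have hPm : P ∈ Submodule.torsionBy ℤ ((W.map (Int.castRingHom ℚ))⁄Qbar).Point (p : ℕ) := by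
    rw [Submodule.mem_torsionBy_iff, natCast_zsmul]; exact hP
  have hdet : LinearMap.det (f - 1) = 0 := by
    by_contra hne
    have := Module.Finite.of_basis t
    obtain ⟨Q, hQ⟩ := (LinearMap.equivOfDetNeZero _ hne).surjective ⟨P, hPm⟩
    refine hP1 ?_
    rw [show P = σ • (Q : ((W.map (Int.castRingHom ℚ))⁄Qbar).Point) - Q from
      (congrArg Subtype.val hQ).symm]
    exact inertia_sub_isE1 hA hgood hσ _
  rw [← LinearMap.det_toMatrix t, map_sub, LinearMap.toMatrix_one, ht σ] at hdet
  set N := Lifting.tateMat (p := p) hΔ σ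
  have hN : N.det = ES.padCyclo p σ := Lifting.det_tateMat hΔ σ
  rw [Matrix.det_fin_two] at hdet hN
  rw [← hN, Matrix.trace_fin_two, map_sub, map_mul, map_mul, map_add]
  simp at hdet
  linear_combination -hdet

end FermatAgent.PSEMI
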